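import Mathlib
import Fermat.Agent.LT.T7.H776.WBasisSpec
import Fermat.Agent.LT.T7.H543.HGroup

/-!
# Row LT, tower T7, leaf T7.L2.3.5.4.B2 `FinAvgHeckeC776` (helper899)

OFF-MAIN.  `finAvgHeckeC899 (K) : T7.WB776.FinAvgHeckeC776 K`, VERBATIM against
`LT/T7/H776/WBasisSpec.lean` (helper776@c8c37e749, sha256 ebd5d61e), unconditional.
Asset (byte-identical copy): `LT/T7/H543/HGroup.lean` (helper543@d9c18a4ed, sha256 62384838):
the components of `GL₂(𝔸_K)` are multiplicative, an Iwahori element of the orbit and an element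
of a level group are integral with integral inverse at every finite place.
Nothing is assumed and every proof is complete.

Proof.  A member `h` of `Rep` is `i · u` (`IsFinData.mem`), trivial at infinity and integral
with integral inverse at `v`.  So `k ↦ h⁻¹ k h` maps a Hecke coset system at `v` to a Hecke
coset system at `v` and a scalar uniformiser at `v` to a scalar uniformiser at `v`, and
`ψ (g k h) = ψ ((g h) (h⁻¹ k h))`.
-/

set_option autoImplicit false
set_option linter.unusedSectionVars false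

open AutomorphicForm IsDedekindDomain NumberField

noncomputable section

namespace Fermat.Agent.LT.T7.H899

open Fermat.Agent.LT Fermat.Agent.LT.H556 Fermat.Agent.LT.H556.A0 Fermat.Agent.LT.T7
  Fermat.Agent.LT.T7.H193 Fermat.Agent.LT.T7.H543

variable {K : Type} [Field K] [NumberField K]

/-! ## 1. The members of `Rep` -/

theorem finAvg_apply899 (Rep : Finset (G K)) (ψ : G K → ℂ) (g : G K) :
    finAvg Rep ψ g = ((Rep.card : ℂ))⁻¹ * ∑ h ∈ Rep, ψ (g * h) := rfl

/-- An element of a level group is integral with integral inverse at every finite place. -/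
theorem level_int899 {𝔑 : Ideal (𝓞 K)} {u : G K} (hu : InLevelGroup 𝔑 u)
    (v : HeightOneSpectrum (𝓞 K)) : IsIntegralAt v u ∧ IsIntegralAt v u⁻¹ := by
  have h := ((inLevelGroup_iff543 𝔑 u).mp hu).2 v
  exact ⟨intM_of_idM543 h.1, intM_of_idM543 h.2⟩

/-- A member of `Rep` is trivial at infinity and integral with integral inverse at every finite
place. -/
theorem rep_int899 {𝔑 𝔑₀ : Ideal (𝓞 K)} {l : ℕ} {o : ℕ → HeightOneSpectrum (𝓞 K)}
    {Rep : Finset (G K)} (hRep : IsFinData 𝔑 𝔑₀ l o Rep) {h : G K} (hh : h ∈ Rep) :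
    (∀ w : InfinitePlace K, TrivAtInf w h) ∧
      ∀ v : HeightOneSpectrum (𝓞 K), IsIntegralAt v h ∧ IsIntegralAt v h⁻¹ := by
  obtain ⟨i, u, hi, hu, rfl⟩ := hRep.mem h hh
  refine ⟨fun w => trivAtInf_mul543 (hi.1 w) (hu.1 w), fun v => ?_⟩
  obtain ⟨i1, i2⟩ := isIwElt_int543 hi v
  obtain ⟨u1, u2⟩ := level_int899 hu v
  refine ⟨isIntegralAt_mul543 i1 u1, ?_⟩
  rw [mul_inv_rev]
  exact isIntegralAt_mul543 u2 i2

/-! ## 2. Conjugation -/

/-- The conjugate `h⁻¹ k h`. -/
def cj899 (h k : G K) : G K := h⁻¹ * k * h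

theorem cj_injective899 (h : G K) : Function.Injective (cj899 h) := by
  intro k k' e
  have e' : h⁻¹ * k * h = h⁻¹ * k' * h := e
  exact mul_left_cancel (mul_right_cancel e')

theorem mul_cj899 (g h k : G K) : g * h * cj899 h k = g * k * h := by
  show g * h * (h⁻¹ * k * h) = g * k * h
  group

theorem finComp_cj899 (v : HeightOneSpectrum (𝓞 K)) (h k : G K) :
    finComp v (cj899 h k) = finComp v h⁻¹ * finComp v k * finComp v h := by
  show finComp v (h⁻¹ * k * h) = _
  rw [finComp_mul543, finComp_mul543]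

theorem cj_local899 {v : HeightOneSpectrum (𝓞 K)} {h k : G K}
    (hh : ∀ w : InfinitePlace K, TrivAtInf w h) (hk : IsLocalAtFin v k) :
    IsLocalAtFin v (cj899 h k) := by
  refine ⟨fun w => ?_, fun v' hv' => ?_⟩
  · exact trivAtInf_mul543 (trivAtInf_mul543 (trivAtInf_inv543 (hh w)) (hk.1 w)) (hh w)
  · show finComp v' (cj899 h k) = 1
    have h1 : finComp v' k = 1 := hk.2 v' hv'
    rw [finComp_cj899, h1, mul_one, finComp_inv_mul543]

theorem cj_int899 {v : HeightOneSpectrum (𝓞 K)} {h k : G K} (h1 : IsIntegralAt v h)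
    (h2 : IsIntegralAt v h⁻¹) (hk : IsIntegralAt v k) : IsIntegralAt v (cj899 h k) :=
  isIntegralAt_mul543 (isIntegralAt_mul543 h2 hk) h1

theorem cj_det899 (v : HeightOneSpectrum (𝓞 K)) (h k : G K) :
    (finComp v (cj899 h k)).det = (finComp v k).det := by
  rw [finComp_cj899, Matrix.det_mul, Matrix.det_mul]
  have h1 : (finComp v h⁻¹).det * (finComp v h).det = 1 := by
    rw [← Matrix.det_mul, finComp_inv_mul543, Matrix.det_one]
  calc (finComp v h⁻¹).det * (finComp v k).det * (finComp v h).det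
      = (finComp v k).det * ((finComp v h⁻¹).det * (finComp v h).det) := by ring
    _ = (finComp v k).det := by rw [h1, mul_one]

/-- `k₁⁻¹ k₂ = h (cj k₁)⁻¹ (cj k₂) h⁻¹`. -/
theorem cj_quot899 (h k₁ k₂ : G K) :
    k₁⁻¹ * k₂ = h * ((cj899 h k₁)⁻¹ * cj899 h k₂) * h⁻¹ := by
  show k₁⁻¹ * k₂ = h * ((h⁻¹ * k₁ * h)⁻¹ * (h⁻¹ * k₂ * h)) * h⁻¹
  group

/-- Conjugation by an element which is trivial at infinity and integral with integral inverse
at `v` maps a Hecke coset system at `v` to a Hecke coset system at `v`. -/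
theorem cj_cosets899 [DecidableEq (G K)] {v : HeightOneSpectrum (𝓞 K)} {h : G K}
    (hh : ∀ w : InfinitePlace K, TrivAtInf w h) (h1 : IsIntegralAt v h)
    (h2 : IsIntegralAt v h⁻¹) {H : Finset (G K)} (hH : IsHeckeCosetSystem v H) :
    IsHeckeCosetSystem v (H.image (cj899 h)) := by
  obtain ⟨hc, hm, hd⟩ := hH
  refine ⟨?_, ?_, ?_⟩
  · rw [Finset.card_image_of_injective H (cj_injective899 h), hc]
  · intro k hk
    obtain ⟨k₀, hk₀, rfl⟩ := Finset.mem_image.mp hk
    obtain ⟨m1, m2, m3⟩ := hm k₀ hk₀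
    exact ⟨cj_local899 hh m1, cj_int899 h1 h2 m2, by rw [cj_det899]; exact m3⟩
  · intro k hk k' hk' hne hint
    obtain ⟨k₀, hk₀, rfl⟩ := Finset.mem_image.mp hk
    obtain ⟨k₁, hk₁, rfl⟩ := Finset.mem_image.mp hk'
    have hne' : k₀ ≠ k₁ := fun e => hne (by rw [e])
    apply hd k₀ hk₀ k₁ hk₁ hne'
    rw [cj_quot899 h k₀ k₁]
    exact isIntegralAt_mul543 (isIntegralAt_mul543 h1 hint) h2

/-- Conjugation maps a scalar uniformiser at `v` to a scalar uniformiser at `v`. -/
theorem cj_unif899 {v : HeightOneSpectrum (𝓞 K)} {h z : G K}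
    (hh : ∀ w : InfinitePlace K, TrivAtInf w h) (hz : IsScalarUniformizerAt v z) :
    IsScalarUniformizerAt v (cj899 h z) := by
  obtain ⟨z1, c, hc, hzc⟩ := hz
  refine ⟨cj_local899 hh z1, c, hc, ?_⟩
  have e : (Matrix.diagonal fun _ => c : Matrix (Fin 2) (Fin 2) (v.adicCompletion K))
      = c • (1 : Matrix (Fin 2) (Fin 2) (v.adicCompletion K)) := by
    ext i j
    by_cases hij : i = j
    · subst hij
      simp
    · simp [Matrix.diagonal_apply_ne _ hij, Matrix.one_apply_ne hij]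
  rw [finComp_cj899, hzc, e, Matrix.mul_smul, Matrix.smul_mul, mul_one, finComp_inv_mul543]

/-! ## 3. The leaf -/

theorem finAvgHeckeC899 (K : Type) [Field K] [NumberField K] : WB776.FinAvgHeckeC776 K := by
  classical
  intro 𝔑 𝔑₀ l o Rep hRep ψ v a b hψ
  obtain ⟨hT, hS⟩ := hψ
  refine ⟨?_, ?_⟩
  · intro H hH g
    have key : ∀ h ∈ Rep, ∑ k ∈ H, ψ (g * k * h)
        = ((Real.sqrt (Ideal.absNorm v.asIdeal : ℝ) : ℝ) : ℂ) * a * ψ (g * h) := by
      intro h hh
      obtain ⟨r1, r2⟩ := rep_int899 hRep hh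
      have h1 := hT (H.image (cj899 h)) (cj_cosets899 r1 (r2 v).1 (r2 v).2 hH) (g * h)
      rw [Finset.sum_image (fun x _ y _ e => cj_injective899 h e)] at h1
      rw [← h1]
      exact Finset.sum_congr rfl fun k _ => by rw [mul_cj899]
    calc ∑ k ∈ H, finAvg Rep ψ (g * k)
        = ∑ k ∈ H, ((Rep.card : ℂ))⁻¹ * ∑ h ∈ Rep, ψ (g * k * h) :=
          Finset.sum_congr rfl fun k _ => finAvg_apply899 Rep ψ (g * k)
      _ = ((Rep.card : ℂ))⁻¹ * ∑ h ∈ Rep, ∑ k ∈ H, ψ (g * k * h) := by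
          rw [← Finset.mul_sum, Finset.sum_comm]
      _ = ((Rep.card : ℂ))⁻¹ * ∑ h ∈ Rep,
            ((Real.sqrt (Ideal.absNorm v.asIdeal : ℝ) : ℝ) : ℂ) * a * ψ (g * h) := by
          rw [Finset.sum_congr rfl key]
      _ = ((Real.sqrt (Ideal.absNorm v.asIdeal : ℝ) : ℝ) : ℂ) * a * finAvg Rep ψ g := by
          rw [finAvg_apply899, ← Finset.mul_sum]
          ring
  · intro z hz g
    have key : ∀ h ∈ Rep, ψ (g * z * h) = b * ψ (g * h) := by
      intro h hh
      obtain ⟨r1, -⟩ := rep_int899 hRep hh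
      have h1 := hS (cj899 h z) (cj_unif899 r1 hz) (g * h)
      rw [mul_cj899] at h1
      exact h1
    calc finAvg Rep ψ (g * z)
        = ((Rep.card : ℂ))⁻¹ * ∑ h ∈ Rep, ψ (g * z * h) := finAvg_apply899 Rep ψ (g * z)
      _ = ((Rep.card : ℂ))⁻¹ * ∑ h ∈ Rep, b * ψ (g * h) := by
          rw [Finset.sum_congr rfl key]
      _ = b * finAvg Rep ψ g := by
          rw [finAvg_apply899, ← Finset.mul_sum]
          ring

/-- The leaf, against the frozen Prop of the spec. -/
example (K : Type) [Field K] [NumberField K] : WB776.FinAvgHeckeC776 K := finAvgHeckeC899 K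

end Fermat.Agent.LT.T7.H899

end
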